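import Fermat.Agent.S41.H335.PeriodTraceTwo
import Fermat.Agent.S41.H881.PeriodSum
import Fermat.Agent.S41.H881.TransferReps

/-!
# S41 / block NEW, leaf NEW-2/2 (helper335): unconditional form

`newPeriodTraceTwo : Spec.NewPeriodTraceTwoStatement`, from `newPeriodTraceTwo_of` and the two
generic leaves `H881.newPeriodSum`, `H881.newTransferReps` (helper881, on main).
-/

set_option autoImplicit false

namespace Fermat.Agent.S41.H335

/-- **NEW-2/2**, unconditional. -/
theorem newPeriodTraceTwo : Fermat.Agent.S41.Spec.NewPeriodTraceTwoStatement :=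
  newPeriodTraceTwo_of Fermat.Agent.S41.H881.newPeriodSum Fermat.Agent.S41.H881.newTransferReps

end Fermat.Agent.S41.H335
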