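import Fermat.Agent.S41.Spec.New2
import Fermat.Agent.Lib.Newform.H923.TraceALProof

/-!
# S41 / block NEW, leaf NEW-2/2 (helper335) — coset representatives for `conjDelta`

`conjDelta N q : Γ₀(N q) →* Γ₀(N)`, `[[a, b], [c, d]] ↦ [[a, q b], [c / q, d]]` is injective with
range `{g ∈ Γ₀(N) : q ∣ g₀₁}`.  For a prime `q ∤ N` and an Atkin–Lehner matrix
`A = [[q a, b], [q N c, q d]]` (`q a d - N b c = 1`) the `q + 1` elements

* `s_j = [[1, j], [0, 1]]` (`j ∈ ℤ/q`), and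
* `s_∞ = γ_∞ = [[q a, b], [N c, d]]`

form a system of representatives of the right cosets `range(conjDelta) \ Γ₀(N)`, and
`alRep q A x = D * s_x`, `D = diag(1, q) = heckeMatrix q 0`, `mapGL k * D = D * mapGL (conjDelta k)`.
-/

set_option autoImplicit false
set_option linter.style.haveILetI false

noncomputable section

namespace Fermat.Agent.S41.H335

open CongruenceSubgroup Matrix.SpecialLinearGroup ModularForm
open Fermat.Agent.S29.H642 Fermat.Agent.S41.Spec Fermat.Agent.Lib.Newform.H923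
open scoped MatrixGroups ModularForm OnePoint

/-! ### Entries of `conjDelta` -/

theorem conjDelta_coe_apply (N q : ℕ) (k : Gamma0 (N * q)) (i j : Fin 2) :
    ((conjDelta N q k : Gamma0 N) : SL(2, ℤ)) i j = conjDeltaMatrix q (k : SL(2, ℤ)) i j := rfl

theorem conjDelta_zero_zero (N q : ℕ) (k : Gamma0 (N * q)) :
    ((conjDelta N q k : Gamma0 N) : SL(2, ℤ)) 0 0 = (k : SL(2, ℤ)) 0 0 := by
  rw [conjDelta_coe_apply]; simp [conjDeltaMatrix]

theorem conjDelta_zero_one (N q : ℕ) (k : Gamma0 (N * q)) :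
    ((conjDelta N q k : Gamma0 N) : SL(2, ℤ)) 0 1 = q * (k : SL(2, ℤ)) 0 1 := by
  rw [conjDelta_coe_apply]; simp [conjDeltaMatrix]

theorem conjDelta_one_zero (N q : ℕ) (k : Gamma0 (N * q)) :
    ((conjDelta N q k : Gamma0 N) : SL(2, ℤ)) 1 0 = (k : SL(2, ℤ)) 1 0 / q := by
  rw [conjDelta_coe_apply]; simp [conjDeltaMatrix]

theorem conjDelta_one_one (N q : ℕ) (k : Gamma0 (N * q)) :
    ((conjDelta N q k : Gamma0 N) : SL(2, ℤ)) 1 1 = (k : SL(2, ℤ)) 1 1 := by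
  rw [conjDelta_coe_apply]; simp [conjDeltaMatrix]

theorem mul_conjDelta_one_zero (N q : ℕ) (k : Gamma0 (N * q)) :
    (q : ℤ) * ((conjDelta N q k : Gamma0 N) : SL(2, ℤ)) 1 0 = (k : SL(2, ℤ)) 1 0 := by
  rw [conjDelta_one_zero]
  exact Int.mul_ediv_cancel' (dvd_of_mem_gamma0_mul k).1

theorem sl_ext {g h : SL(2, ℤ)} (h00 : g 0 0 = h 0 0) (h01 : g 0 1 = h 0 1)
    (h10 : g 1 0 = h 1 0) (h11 : g 1 1 = h 1 1) : g = h := by
  ext i j
  fin_cases i <;> fin_cases j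
  · exact h00
  · exact h01
  · exact h10
  · exact h11

theorem conjDelta_injective (N : ℕ) {q : ℕ} (hq : q ≠ 0) :
    Function.Injective (conjDelta N q) := by
  have hq' : (q : ℤ) ≠ 0 := by exact_mod_cast hq
  intro k k' h
  have e00 := congrArg (fun g : Gamma0 N => (g : SL(2, ℤ)) 0 0) h
  have e01 := congrArg (fun g : Gamma0 N => (g : SL(2, ℤ)) 0 1) h
  have e10 := congrArg (fun g : Gamma0 N => (q : ℤ) * (g : SL(2, ℤ)) 1 0) h
  have e11 := congrArg (fun g : Gamma0 N => (g : SL(2, ℤ)) 1 1) h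
  simp only [conjDelta_zero_zero, conjDelta_zero_one, conjDelta_one_one,
    mul_conjDelta_one_zero] at e00 e01 e10 e11
  exact Subtype.ext (sl_ext e00 (mul_left_cancel₀ hq' e01) e10 e11)

/-- The range of `conjDelta` consists of the elements of `Γ₀(N)` whose upper right entry is
divisible by `q`. -/
theorem mem_range_conjDelta_iff {N q : ℕ} (hq : q ≠ 0) (g : Gamma0 N) :
    g ∈ (conjDelta N q).range ↔ (q : ℤ) ∣ (g : SL(2, ℤ)) 0 1 := by
  have hq' : (q : ℤ) ≠ 0 := by exact_mod_cast hq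
  constructor
  · rintro ⟨k, rfl⟩
    rw [conjDelta_zero_one]
    exact Dvd.intro _ rfl
  · rintro ⟨t, ht⟩
    have hdet : (g : SL(2, ℤ)) 0 0 * (g : SL(2, ℤ)) 1 1 - (g : SL(2, ℤ)) 0 1 * (g : SL(2, ℤ)) 1 0
        = 1 := by
      have := (g : SL(2, ℤ)).det_coe
      rwa [Matrix.det_fin_two] at this
    obtain ⟨u, hu⟩ : (N : ℤ) ∣ (g : SL(2, ℤ)) 1 0 := dvd_of_mem_Gamma0 g.2
    let k0 : SL(2, ℤ) := ⟨!![(g : SL(2, ℤ)) 0 0, t; q * (g : SL(2, ℤ)) 1 0, (g : SL(2, ℤ)) 1 1], by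
      rw [Matrix.det_fin_two_of]
      rw [ht] at hdet
      linear_combination hdet⟩
    have hk0 : k0 ∈ Gamma0 (N * q) := by
      apply mem_Gamma0_of_dvd
      show ((N * q : ℕ) : ℤ) ∣ q * (g : SL(2, ℤ)) 1 0
      rw [hu]
      push_cast
      exact ⟨u, by ring⟩
    refine ⟨⟨k0, hk0⟩, ?_⟩
    apply Subtype.ext
    apply sl_ext
    · rw [conjDelta_zero_zero]; rfl
    · rw [conjDelta_zero_one, ht]; rfl
    · rw [conjDelta_one_zero]
      show (q * (g : SL(2, ℤ)) 1 0) / (q : ℤ) = _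
      exact Int.mul_ediv_cancel_left _ hq'
    · rw [conjDelta_one_one]; rfl

/-! ### The representatives -/

/-- The translation `[[1, j], [0, 1]]`. -/
def tMat (j : ℤ) : SL(2, ℤ) := ⟨!![1, j; 0, 1], by rw [Matrix.det_fin_two_of]; ring⟩

@[simp] theorem tMat_zero_zero (j : ℤ) : tMat j 0 0 = 1 := rfl
@[simp] theorem tMat_zero_one (j : ℤ) : tMat j 0 1 = j := rfl
@[simp] theorem tMat_one_zero (j : ℤ) : tMat j 1 0 = 0 := rfl
@[simp] theorem tMat_one_one (j : ℤ) : tMat j 1 1 = 1 := rfl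

theorem tMat_mem (N : ℕ) (j : ℤ) : tMat j ∈ Gamma0 N :=
  mem_Gamma0_of_dvd (by rw [tMat_one_zero]; exact dvd_zero _)

/-- The representatives `s_x`, `x ∈ ℙ¹(𝔽_q)`: `s_∞ = gi`, `s_j = [[1, j], [0, 1]]`. -/
def sRep {N q : ℕ} (gi : Gamma0 N) (x : OnePoint (ZMod q)) : Gamma0 N :=
  x.elim gi (fun j => ⟨tMat (j.val : ℤ), tMat_mem N _⟩)

@[simp] theorem sRep_infty {N q : ℕ} (gi : Gamma0 N) :
    sRep gi (∞ : OnePoint (ZMod q)) = gi := rfl

@[simp] theorem sRep_coe {N q : ℕ} (gi : Gamma0 N) (j : ZMod q) :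
    sRep gi (j : OnePoint (ZMod q)) = ⟨tMat (j.val : ℤ), tMat_mem N _⟩ := rfl

theorem mul_inv_zero_one (g h : SL(2, ℤ)) :
    (g * h⁻¹) 0 1 = g 0 1 * h 0 0 - g 0 0 * h 0 1 := by
  rw [Matrix.SpecialLinearGroup.coe_mul, Matrix.SpecialLinearGroup.coe_inv,
    Matrix.adjugate_fin_two, Matrix.mul_apply, Fin.sum_univ_two]
  simp
  ring

theorem coe_mul_inv_zero_one {N : ℕ} (g h : Gamma0 N) :
    ((g * h⁻¹ : Gamma0 N) : SL(2, ℤ)) 0 1 =
      (g : SL(2, ℤ)) 0 1 * (h : SL(2, ℤ)) 0 0 - (g : SL(2, ℤ)) 0 0 * (h : SL(2, ℤ)) 0 1 := by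
  rw [Subgroup.coe_mul, Subgroup.coe_inv, mul_inv_zero_one]

section Reps

variable {N q : ℕ} [Fact q.Prime] (gi : Gamma0 N)

/-- Separation: distinct representatives lie in distinct right cosets of `range(conjDelta)`. -/
theorem sRep_separated (h00 : (q : ℤ) ∣ (gi : SL(2, ℤ)) 0 0)
    (h01 : ¬ (q : ℤ) ∣ (gi : SL(2, ℤ)) 0 1) (x y : OnePoint (ZMod q))
    (h : sRep gi x * (sRep gi y)⁻¹ ∈ (conjDelta N q).range) : x = y := by
  have hq : q ≠ 0 := (Fact.out : q.Prime).ne_zero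
  haveI : NeZero q := ⟨hq⟩
  rw [mem_range_conjDelta_iff hq, coe_mul_inv_zero_one] at h
  obtain ⟨u, hu⟩ := h00
  induction x using OnePoint.rec with
  | infty =>
    induction y using OnePoint.rec with
    | infty => rfl
    | coe j' =>
      exfalso
      apply h01
      rw [sRep_infty, sRep_coe] at h
      simp only [tMat_zero_zero, tMat_zero_one] at h
      have h2 : (q : ℤ) ∣ (gi : SL(2, ℤ)) 0 0 * (j'.val : ℤ) := ⟨u * j'.val, by rw [hu]; ring⟩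
      have := dvd_add h h2
      simpa using this
  | coe j =>
    induction y using OnePoint.rec with
    | infty =>
      exfalso
      apply h01
      rw [sRep_infty, sRep_coe] at h
      simp only [tMat_zero_zero, tMat_zero_one] at h
      have h2 : (q : ℤ) ∣ (j.val : ℤ) * (gi : SL(2, ℤ)) 0 0 := ⟨j.val * u, by rw [hu]; ring⟩
      have := dvd_sub h2 h
      simpa using this
    | coe j' =>
      rw [sRep_coe, sRep_coe] at h
      simp only [tMat_zero_zero, tMat_zero_one] at h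
      have h3 : (((j.val : ℤ) * 1 - 1 * (j'.val : ℤ) : ℤ) : ZMod q) = 0 :=
        (ZMod.intCast_zmod_eq_zero_iff_dvd _ _).mpr h
      push_cast at h3
      rw [ZMod.natCast_zmod_val, ZMod.natCast_zmod_val] at h3
      have : j = j' := by linear_combination h3
      rw [this]

/-- Covering: every element of `Γ₀(N)` lies in the right coset of some representative. -/
theorem sRep_cover (h00 : (q : ℤ) ∣ (gi : SL(2, ℤ)) 0 0) (g : Gamma0 N) :
    ∃ x : OnePoint (ZMod q), g * (sRep gi x)⁻¹ ∈ (conjDelta N q).range := by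
  have hq : q ≠ 0 := (Fact.out : q.Prime).ne_zero
  haveI : NeZero q := ⟨hq⟩
  by_cases hg : (q : ℤ) ∣ (g : SL(2, ℤ)) 0 0
  · refine ⟨∞, ?_⟩
    rw [mem_range_conjDelta_iff hq, coe_mul_inv_zero_one, sRep_infty]
    exact dvd_sub (Dvd.dvd.mul_left h00 _) (Dvd.dvd.mul_right hg _)
  · have hne : (((g : SL(2, ℤ)) 0 0 : ℤ) : ZMod q) ≠ 0 := fun h =>
      hg ((ZMod.intCast_zmod_eq_zero_iff_dvd _ _).mp h)
    refine ⟨((((g : SL(2, ℤ)) 0 1 : ℤ) : ZMod q) * (((g : SL(2, ℤ)) 0 0 : ℤ) : ZMod q)⁻¹ :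
      ZMod q), ?_⟩
    rw [mem_range_conjDelta_iff hq, coe_mul_inv_zero_one, sRep_coe]
    simp only [tMat_zero_zero, tMat_zero_one]
    apply (ZMod.intCast_zmod_eq_zero_iff_dvd _ _).mp
    push_cast
    rw [ZMod.natCast_zmod_val]
    field_simp
    ring

/-- For every `x` and `γ ∈ Γ₀(N)` there are `y` and `k ∈ Γ₀(N q)` with
`s_x γ = conjDelta(k) s_y`. -/
theorem exists_sRep_mul (h00 : (q : ℤ) ∣ (gi : SL(2, ℤ)) 0 0) (γ : Gamma0 N)
    (x : OnePoint (ZMod q)) :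
    ∃ (y : OnePoint (ZMod q)) (k : Gamma0 (N * q)),
      sRep gi x * γ = conjDelta N q k * sRep gi y := by
  obtain ⟨y, k, hk⟩ := sRep_cover gi h00 (sRep gi x * γ)
  exact ⟨y, k, by rw [hk]; group⟩

/-- The index map `x ↦ y` of `exists_sRep_mul`. -/
def sIdx (h00 : (q : ℤ) ∣ (gi : SL(2, ℤ)) 0 0) (γ : Gamma0 N) (x : OnePoint (ZMod q)) :
    OnePoint (ZMod q) :=
  (exists_sRep_mul gi h00 γ x).choose

/-- The element `k_x ∈ Γ₀(N q)` of `exists_sRep_mul`. -/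
def sElt (h00 : (q : ℤ) ∣ (gi : SL(2, ℤ)) 0 0) (γ : Gamma0 N) (x : OnePoint (ZMod q)) :
    Gamma0 (N * q) :=
  (exists_sRep_mul gi h00 γ x).choose_spec.choose

theorem sElt_spec (h00 : (q : ℤ) ∣ (gi : SL(2, ℤ)) 0 0) (γ : Gamma0 N)
    (x : OnePoint (ZMod q)) :
    sRep gi x * γ = conjDelta N q (sElt gi h00 γ x) * sRep gi (sIdx gi h00 γ x) :=
  (exists_sRep_mul gi h00 γ x).choose_spec.choose_spec

theorem sIdx_injective (h00 : (q : ℤ) ∣ (gi : SL(2, ℤ)) 0 0)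
    (h01 : ¬ (q : ℤ) ∣ (gi : SL(2, ℤ)) 0 1) (γ : Gamma0 N) :
    Function.Injective (sIdx gi h00 γ) := by
  intro x x' hxx'
  apply sRep_separated gi h00 h01
  have h1 := sElt_spec gi h00 γ x
  have h2 := sElt_spec gi h00 γ x'
  rw [hxx'] at h1
  refine ⟨sElt gi h00 γ x * (sElt gi h00 γ x')⁻¹, ?_⟩
  have e : sRep gi x * (sRep gi x')⁻¹ = (sRep gi x * γ) * (sRep gi x' * γ)⁻¹ := by group
  rw [e, h1, h2, map_mul, map_inv]
  group

/-- The permutation `x ↦ y` of `ℙ¹(𝔽_q)` attached to `γ ∈ Γ₀(N)`. -/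
def sPerm (h00 : (q : ℤ) ∣ (gi : SL(2, ℤ)) 0 0)
    (h01 : ¬ (q : ℤ) ∣ (gi : SL(2, ℤ)) 0 1) (γ : Gamma0 N) : Equiv.Perm (OnePoint (ZMod q)) :=
  haveI : NeZero q := ⟨(Fact.out : q.Prime).ne_zero⟩
  Equiv.ofBijective (sIdx gi h00 γ)
    (Finite.injective_iff_bijective.mp (sIdx_injective gi h00 h01 γ))

@[simp] theorem sPerm_apply (h00 : (q : ℤ) ∣ (gi : SL(2, ℤ)) 0 0)
    (h01 : ¬ (q : ℤ) ∣ (gi : SL(2, ℤ)) 0 1) (γ : Gamma0 N) (x : OnePoint (ZMod q)) :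
    sPerm gi h00 h01 γ x = sIdx gi h00 γ x := rfl

end Reps

/-! ### Matrix identities in `GL(2, ℝ)` -/

section Matrices

variable {N q : ℕ}

/-- `mapGL k * D = D * mapGL (conjDelta k)`, `D = diag(1, q)`. -/
theorem mapGL_mul_heckeMatrix_zero (hq : q ≠ 0) (k : Gamma0 (N * q)) :
    mapGL ℝ (k : SL(2, ℤ)) * heckeMatrix q 0 =
      heckeMatrix q 0 * mapGL ℝ ((conjDelta N q k : Gamma0 N) : SL(2, ℤ)) := by
  refine ((isInt_mapGL _).mul (isInt_heckeMatrix hq 0)).ext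
    ((isInt_heckeMatrix hq 0).mul (isInt_mapGL _)) ?_ ?_ ?_ ?_
  · rw [conjDelta_zero_zero]; ring
  · rw [conjDelta_zero_one]; push_cast; ring
  · have := mul_conjDelta_one_zero N q k
    linear_combination -this
  · rw [conjDelta_one_one]; push_cast; ring

/-- `alRep q A x = D * s_x`. -/
theorem alRep_eq_mul (hq : q ≠ 0) (gi : Gamma0 N) {A : GL (Fin 2) ℝ}
    (hA : IsInt A ((gi : SL(2, ℤ)) 0 0) ((gi : SL(2, ℤ)) 0 1) (q * (gi : SL(2, ℤ)) 1 0)
      (q * (gi : SL(2, ℤ)) 1 1)) (x : OnePoint (ZMod q)) :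
    alRep q A x = heckeMatrix q 0 * mapGL ℝ ((sRep gi x : Gamma0 N) : SL(2, ℤ)) := by
  induction x using OnePoint.rec with
  | infty =>
    rw [alRep_infty, sRep_infty]
    refine hA.ext ((isInt_heckeMatrix hq 0).mul (isInt_mapGL _)) ?_ ?_ ?_ ?_ <;> push_cast <;> ring
  | coe j =>
    rw [alRep_coe, sRep_coe]
    refine (isInt_heckeMatrix hq j.val).ext ((isInt_heckeMatrix hq 0).mul (isInt_mapGL _))
      ?_ ?_ ?_ ?_
    · show (1 : ℤ) = 1 * tMat j.val 0 0 + ((0 : ℕ) : ℤ) * tMat j.val 1 0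
      simp
    · show ((j.val : ℕ) : ℤ) = 1 * tMat j.val 0 1 + ((0 : ℕ) : ℤ) * tMat j.val 1 1
      simp
    · show (0 : ℤ) = 0 * tMat j.val 0 0 + (q : ℤ) * tMat j.val 1 0
      simp
    · show (q : ℤ) = 0 * tMat j.val 0 1 + (q : ℤ) * tMat j.val 1 1
      simp

/-- A relation `s_x γ = conjDelta(k) s_y` in `Γ₀(N)` gives `ρ_x γ = k ρ_y` in `GL(2, ℝ)`. -/
theorem alRep_mul_mapGL (hq : q ≠ 0) (gi : Gamma0 N) {A : GL (Fin 2) ℝ}
    (hA : IsInt A ((gi : SL(2, ℤ)) 0 0) ((gi : SL(2, ℤ)) 0 1) (q * (gi : SL(2, ℤ)) 1 0)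
      (q * (gi : SL(2, ℤ)) 1 1)) {x y : OnePoint (ZMod q)} {γ : Gamma0 N} {k : Gamma0 (N * q)}
    (h : sRep gi x * γ = conjDelta N q k * sRep gi y) :
    alRep q A x * mapGL ℝ (γ : SL(2, ℤ)) = mapGL ℝ (k : SL(2, ℤ)) * alRep q A y := by
  have h' : ((sRep gi x : Gamma0 N) : SL(2, ℤ)) * (γ : SL(2, ℤ)) =
      ((conjDelta N q k : Gamma0 N) : SL(2, ℤ)) * ((sRep gi y : Gamma0 N) : SL(2, ℤ)) := by
    have := congrArg (fun g : Gamma0 N => (g : SL(2, ℤ))) h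
    simpa only [Subgroup.coe_mul] using this
  rw [alRep_eq_mul hq gi hA x, alRep_eq_mul hq gi hA y, mul_assoc, ← map_mul, h', map_mul,
    ← mul_assoc, ← mul_assoc, mapGL_mul_heckeMatrix_zero hq k]

end Matrices

end Fermat.Agent.S41.H335
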