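import Fermat.Agent.S41.H335.ConjDeltaReps

/-!
# S41 / block NEW, leaf NEW-2/2 (helper335): `NewPeriodTraceTwoStatement`

For `f ∈ S₂(Γ₀(N q))` (`q` prime, `q ∤ N`) and an Atkin–Lehner matrix `A` at `q`, the twisted
trace `g₂ = f ∣ A + U_q f` is a cusp form of level `N` and its periods are the transfer `t₂`
(along `conjDelta : Γ₀(N q) → Γ₀(N)`) of the periods of `f`.

* `newPeriodTraceTwo_of : NewPeriodSumStatement → NewTransferRepsStatement →
    NewPeriodTraceTwoStatement`.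

Proof: `g₂ = ∑_x f ∣ ρ_x` with `ρ_x = alRep q A x = D s_x` (`D = diag(1, q)`), where `s_x`
(`x ∈ ℙ¹(𝔽_q)`) is the system of representatives of `range(conjDelta) \ Γ₀(N)` of
`ConjDeltaReps.lean`; a relation `s_x γ = conjDelta(k_x) s_{σ x}` gives `ρ_x γ = k_x ρ_{σ x}`;
then the two generic leaves (period of a sum of slashes, transfer in coset representatives).
-/

set_option autoImplicit false
set_option linter.style.haveILetI false

noncomputable section

namespace Fermat.Agent.S41.H335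

open CongruenceSubgroup ModularCurve ModularCurve.Period ModularFormClass UpperHalfPlane
open Matrix.SpecialLinearGroup ModularForm
open Fermat.Agent.S29.H642 Fermat.Agent.S41.Spec Fermat.Agent.Lib.Newform.H923
open scoped MatrixGroups ModularForm OnePoint

/-- Transport of a cusp form along an equality of levels does not change the function. -/
theorem coe_cast_level {n m : ℕ} (h : n = m) (f : CuspForm (Gamma0 n) 2) :
    (⇑(h ▸ f : CuspForm (Gamma0 m) 2) : ℍ → ℂ) = ⇑f := by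
  subst h
  rfl

theorem det_alRep_pos {q M : ℕ} (hq : q ≠ 0) {A : GL (Fin 2) ℝ} (hA : IsAL q M A)
    (x : OnePoint (ZMod q)) :
    0 < ((alRep q A x : GL (Fin 2) ℝ) : Matrix (Fin 2) (Fin 2) ℝ).det := by
  induction x using OnePoint.rec with
  | infty =>
    have := hA.det_pos hq
    rwa [Matrix.GeneralLinearGroup.val_det_apply] at this
  | coe j =>
    have := ModularForm.det_heckeMatrix_pos q j.val
    rwa [Matrix.GeneralLinearGroup.val_det_apply] at this

/-- **NEW-2/2.** -/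
theorem newPeriodTraceTwo_of (hsum : NewPeriodSumStatement) (hreps : NewTransferRepsStatement) :
    NewPeriodTraceTwoStatement := by
  intro N q hN hq hqN f A hA
  haveI : Fact q.Prime := ⟨hq⟩
  have hq0 : q ≠ 0 := hq.ne_zero
  haveI : NeZero q := ⟨hq0⟩
  haveI : NeZero N := ⟨hN⟩
  haveI : NeZero (N * q) := ⟨Nat.mul_ne_zero hN hq0⟩
  haveI : NeZero (q * N) := ⟨Nat.mul_ne_zero hq0 hN⟩
  -- the form at level `q * N`
  set f' : CuspForm (Gamma0 (q * N)) 2 := (Nat.mul_comm N q) ▸ f with hf'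
  have hcoe : (⇑f' : ℍ → ℂ) = ⇑f := coe_cast_level (Nat.mul_comm N q) f
  have hqN' : q ∣ q * N := Dvd.intro _ rfl
  have hinv : InvUnder N 2 ⇑(alCusp 2 hA f' + CuspForm.heckeULin 2 hqN' f') := by
    have h1 := invUnder_slash_AL_add_heckeU 2 hq (invUnder_of_slashInvariantFormClass f') hA
    rw [CuspForm.coe_add, CuspForm.coe_heckeULin_apply, coe_alCusp]
    exact h1
  have hg₂ : (⇑(descendCusp 2 _ hinv) : ℍ → ℂ) = (⇑f : ℍ → ℂ) ∣[(2 : ℤ)] A +
      ModularForm.heckeU 2 q ⇑f := by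
    rw [coe_descendCusp, CuspForm.coe_add, CuspForm.coe_heckeULin_apply, coe_alCusp, hcoe]
  refine ⟨descendCusp 2 _ hinv, hg₂, ?_⟩
  -- the Atkin–Lehner data
  obtain ⟨a, b, c, d, hInt, h⟩ := id hA
  let gi0 : SL(2, ℤ) := ⟨!![q * a, b; N * c, d], by
    rw [Matrix.det_fin_two_of]; linear_combination h⟩
  have hgi0 : gi0 ∈ Gamma0 N := mem_Gamma0_of_dvd ⟨c, rfl⟩
  let gi : Gamma0 N := ⟨gi0, hgi0⟩
  have h00 : (q : ℤ) ∣ (gi : SL(2, ℤ)) 0 0 := ⟨a, rfl⟩
  have h01 : ¬ (q : ℤ) ∣ (gi : SL(2, ℤ)) 0 1 := by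
    rintro ⟨t, ht⟩
    have ht' : b = q * t := ht
    have h1 : (q : ℤ) ∣ 1 := ⟨a * d - N * t * c, by rw [← h, ht']; ring⟩
    have := Int.eq_one_of_dvd_one (by positivity) h1
    exact hq.one_lt.ne' (by exact_mod_cast this)
  have hIntA : IsInt A ((gi : SL(2, ℤ)) 0 0) ((gi : SL(2, ℤ)) 0 1) (q * (gi : SL(2, ℤ)) 1 0)
      (q * (gi : SL(2, ℤ)) 1 1) := by
    have e : (q : ℤ) * (N * c) = q * N * c := by ring
    show IsInt A (q * a) b (q * (N * c)) (q * d)
    rw [e]
    exact hInt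
  refine AddMonoidHom.ext fun γ' => ?_
  obtain ⟨γ, rfl⟩ : ∃ γ : Gamma0 N, Additive.ofMul γ = γ' := ⟨Additive.toMul γ', rfl⟩
  -- the two generic leaves
  have hP := hsum (N * q) N f (descendCusp 2 _ hinv) (OnePoint (ZMod q)) (alRep q A)
    (det_alRep_pos hq0 hA) (by rw [hg₂, slash_add_heckeU_eq_sum]) γ (sPerm gi h00 h01 γ)
    (sElt gi h00 γ) (fun x => alRep_mul_mapGL hq0 gi hIntA (sElt_spec gi h00 γ x))
  have hT := hreps (Gamma0 (N * q)) (Gamma0 N) ℂ (conjDelta N q) (conjDelta_injective N hq0)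
    (OnePoint (ZMod q)) (sRep gi) (sRep_separated gi h00 h01) (sRep_cover gi h00)
    (periodMap (N * q) f) γ (sIdx gi h00 γ) (sElt gi h00 γ) (sElt_spec gi h00 γ)
  rw [hP]
  exact hT.symm

end Fermat.Agent.S41.H335
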